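/-
Fermat/Agent/MAZ/CuspGal19/Main.lean  (helper19)

Programme MAZ (S15), brick CUSP-GAL: **the two cusps of `X₀(p)` are Galois-fixed places**.

* `arithmeticGalois_smul_jdF` : the arithmetic Galois action fixes every formal `j(q^d)`, `d ∣ N`
  (rational `q`-expansion);
* `galois_smul_cuspZero`, `galois_smul_cuspInf` (`p` prime):
  `arithmeticGalois (modularFunctionFieldFull p) σ • cuspZero p = cuspZero p`, same for `cuspInf p`
  — the exact shape of the hypothesis `hcz` of `Endgame88.Inst.s15_of_inputs` /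
  `moduliClass_mem_JQ`;
* `c0_mem_JQ` : the cuspidal class `c₀ = cl([∞] - [0])` is rational.

Proof: `σ • v` is again a pole of `j` (`j` is Galois-fixed), hence one of the two cusps
(`HeckeCusp89.eq_cuspInf_or_eq_cuspZero`), and the two cusps are told apart by the order of the
Galois-fixed function `j_p = j(q^p)` (`eq_cuspZero_of_ord`, `eq_cuspInf_of_ord`).
-/
import Mathlib
import Fermat.Agent.MAZ.HeckeCusp89.CuspPrime
import Fermat.Agent.S23.GaloisReg

set_option autoImplicit false
set_option linter.unusedSectionVars false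

open AlgebraicCurve ModularCurve

noncomputable section

namespace Fermat.Agent.MAZ.CuspGal19

open Fermat.Agent.X0 Fermat.Agent.MAZ.HeckeCusp89

/-- `ℚbar`. -/
local notation "Qb" => AlgebraicClosure ℚ

/-- The arithmetic Galois action fixes the formal `j(q^d)`. -/
theorem arithmeticGalois_smul_jdF (N : ℕ) [NeZero N] (d : ℕ) [NeZero d] (hd : d ∣ N)
    (σ : Qb ≃ₐ[ℚ] Qb) :
    arithmeticGalois (modularFunctionFieldFull N) σ • jdF N d hd = jdF N d hd := by
  apply Subtype.ext
  rw [coe_arithmeticGalois_smul]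
  exact coeffMap_coeffEmb σ _

variable (p : ℕ) [NeZero p]

/-- Orders of Galois-fixed functions at a Galois-translated place. -/
theorem ord_smul_of_fixed (σ : Qb ≃ₐ[ℚ] Qb) (v : Place Qb (modularFunctionFieldBar p))
    (f : FF p) (hf : arithmeticGalois (modularFunctionFieldFull p) σ • f = f) :
    (arithmeticGalois (modularFunctionFieldFull p) σ • v).ord f = v.ord f := by
  have h := SemilinearAut.ord_smul (arithmeticGalois (modularFunctionFieldFull p) σ) v f
  rwa [hf] at h

/-- **CUSP-GAL**: the cusp `0` of `X₀(p)` is fixed by `Gal(ℚ̄/ℚ)`. -/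
theorem galois_smul_cuspZero (hp : p.Prime) (σ : Qb ≃ₐ[ℚ] Qb) :
    arithmeticGalois (modularFunctionFieldFull p) σ • cuspZero p = cuspZero p := by
  have hj := Fermat.Agent.S23.GaloisReg.arithmeticGalois_smul_jF p σ
  have hjp := arithmeticGalois_smul_jdF p p (dvd_refl p) σ
  apply eq_cuspZero_of_ord p hp
  · rw [ord_smul_of_fixed p σ _ _ hj]
    exact cuspZero_ord_jF_neg p
  · rw [ord_smul_of_fixed p σ _ _ hj, ord_smul_of_fixed p σ _ _ hjp]
    exact cuspZero_ord_jp p

/-- The cusp `∞` of `X₀(p)` is fixed by `Gal(ℚ̄/ℚ)`. -/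
theorem galois_smul_cuspInf (hp : p.Prime) (σ : Qb ≃ₐ[ℚ] Qb) :
    arithmeticGalois (modularFunctionFieldFull p) σ • cuspInf p = cuspInf p := by
  have hj := Fermat.Agent.S23.GaloisReg.arithmeticGalois_smul_jF p σ
  have hjp := arithmeticGalois_smul_jdF p p (dvd_refl p) σ
  apply eq_cuspInf_of_ord p hp
  · rw [ord_smul_of_fixed p σ _ _ hj]
    exact cuspInf_ord_jF_neg p
  · rw [ord_smul_of_fixed p σ _ _ hj, ord_smul_of_fixed p σ _ _ hjp]
    exact cuspInf_ord_jp p

/-- The cuspidal class `c₀ = cl([∞] - [0])` is a rational point of `J₀(p)`. -/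
theorem c0_mem_JQ (hp : p.Prime) :
    c0 p ∈ FixedPoints.addSubgroup (Qb ≃ₐ[ℚ] Qb) (JZero p) := by
  intro σ
  show σ • c0 p = c0 p
  rw [galois_smul_pic0_def, c0, SemilinearAut.pic0_smul_mk]
  congr 1
  apply Subtype.ext
  rw [SemilinearAut.coe_degZeroSMulHom]
  show arithmeticGalois (modularFunctionFieldFull p) σ •
      (Finsupp.single (cuspInf p) 1 - Finsupp.single (cuspZero p) 1 :
        Divisor Qb (modularFunctionFieldBar p)) = _
  rw [smul_sub, SemilinearAut.smul_single, SemilinearAut.smul_single, galois_smul_cuspInf p hp σ,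
    galois_smul_cuspZero p hp σ]
  rfl

end Fermat.Agent.MAZ.CuspGal19
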